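/-
Row 38 (target S44), seat J-W (helper5): the `w`-symmetry of the junction propositions of the
spine (`R38/SpineDefs.lean`).  Level `D.Q * D.R`, `w = atkinLehner D` on functions,
`w_* = pushW D` on classes.

* `spW_pushW_pushW`   (W0) `w_* ∘ w_* = id` on `J₀(N)(ℚ̄)`;
* `spW_isKumGen`      (W1) Kummer generators: `(E, g)` for `y` gives `(E', w g)` for `w_* y`;
* `spW_heckeFun`      `T_ℓ (w f) = w (T_ℓ f)` on functions (`ℓ ∤ N` prime);
* `spW_hecke_pushW`   `T_ℓ (w_* y) = w_* (T_ℓ y)` on torsion classes;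
* `spW_isNewEigen`    (W2) `w_*` preserves the `p`-new eigenspaces;
* `spW_kumStab`, `spW_unip`  (W3) `w_*` preserves the Galois conditions;
* `spW_mem_kPrime_iff` (W4) `y ∈ K' ↔ w_* y ∈ K'`;
* `spJW : SpJW`       the junction J-W of the spine (`R38/Spine.lean`).
-/
import Mathlib
import Fermat.Agent.R38.SpineDefs
import Fermat.Agent.R38.Spine
import Fermat.Agent.Lib.BadRed.Bridge.PullAux
import Fermat.Agent.Lib.BadRed.Bridge.AuxNew
import Fermat.Agent.E.Desc.Comm.Functorial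
import Fermat.Agent.F3.I2.Deg.PushGal
import Fermat.Agent.Lib.HeckeInputs.Qbar

set_option autoImplicit false
set_option linter.style.haveILetI false
set_option linter.unusedSectionVars false
set_option synthInstance.maxHeartbeats 400000

noncomputable section

namespace Fermat.Agent.R38

open ModularCurve AlgebraicCurve Fermat.Agent.F3 Fermat.Agent.F3G Fermat.Agent.F3I2
  Fermat.Agent.GaussInt Fermat.Agent.AtkinLehner Fermat.Agent.BadRed Fermat.Agent.F3Deg
  Fermat.Agent.F3DegP Fermat.Agent.F3DegW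

local notation "Qb" => AlgebraicClosure ℚ
local notation "GQ" => (AlgebraicClosure ℚ ≃ₐ[ℚ] AlgebraicClosure ℚ)

/-! ### push-forward along the identity -/

section Generic

variable {K F : Type*} [Field K] [Field F] [Algebra K F]

/-- the restriction of a place along the identity. -/
theorem spW_restrictAlong_id (h : (AlgHom.id K F).toRingHom.IsIntegral) (w : Place K F) :
    w.restrictAlong (AlgHom.id K F) h = w := by
  apply Place.ext
  ext f
  rfl

/-- push-forward of divisors along the identity. -/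
theorem spW_pushforwardAlong_id (h : (AlgHom.id K F).toRingHom.IsIntegral)
    (hF : ∀ v : Place K F, v.deg = 1) (E : Divisor K F) :
    Divisor.pushforwardAlong (AlgHom.id K F) h E = E := by
  induction E using Finsupp.induction with
  | zero => simp
  | single_add w n E _ _ ih =>
    rw [map_add, ih,
      Fermat.Agent.EDescComm.pushforwardAlong_single_of_deg_one (AlgHom.id K F) h hF hF w n,
      spW_restrictAlong_id h w]

/-- push-forward of divisors along an involution is an involution. -/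
theorem spW_pushforwardAlong_invol (e : F ≃ₐ[K] F) (he : ∀ x, e (e x) = x)
    (h : e.toAlgHom.toRingHom.IsIntegral) (hF : ∀ v : Place K F, v.deg = 1)
    (E : Divisor K F) :
    Divisor.pushforwardAlong e.toAlgHom h (Divisor.pushforwardAlong e.toAlgHom h E) = E := by
  have hcomp : e.toAlgHom.comp e.toAlgHom = AlgHom.id K F := AlgHom.ext he
  have hi : (e.toAlgHom.comp e.toAlgHom).toRingHom.IsIntegral :=
    Fermat.Agent.EDescComm.isIntegral_comp _ _ h h
  have hid : (AlgHom.id K F).toRingHom.IsIntegral := hcomp ▸ hi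
  rw [← Fermat.Agent.EDescComm.pushforwardAlong_comp e.toAlgHom e.toAlgHom h h hi hF hF hF E,
    Fermat.Agent.EDescComm.pushforwardAlong_eq_of_eq hcomp hi hid E,
    spW_pushforwardAlong_id hid hF E]

/-- the norm along `α` commutes with automorphisms compatible with `α`. -/
theorem spW_normAlong_equiv {F' : Type*} [Field F'] [Algebra K F'] (α : F →ₐ[K] F')
    (w : F ≃ₐ[K] F) (w' : F' ≃ₐ[K] F') (h : ∀ x, w' (α x) = α (w x)) (y : F') :
    normAlong α (w' y) = w (normAlong α y) := by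
  letI := algebraAlong α
  have he : RingHom.comp (algebraMap F F') (w.toRingEquiv : F →+* F) =
      RingHom.comp (w'.toRingEquiv : F' →+* F') (algebraMap F F') :=
    RingHom.ext fun x => (h x).symm
  have key := Algebra.norm_eq_of_equiv_equiv w.toRingEquiv w'.toRingEquiv he y
  have key' : w (Algebra.norm F y) = Algebra.norm F (w' y) := by
    rw [key]
    exact w.toRingEquiv.apply_symm_apply _
  exact key'.symm

end Generic

/-! ### `w` and the degeneracy maps -/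

section Compat

set_option maxHeartbeats 1000000

/-- **compatibility of the Atkin–Lehner involutions `w_Q` at the levels `M = Q R` and
`M ℓ = Q (R ℓ)` with `q ↦ q^ℓ`** (on expansions). -/
theorem spW_coe_wAt_heckeBetaBar (D D' : ALData) {M ℓ : ℕ} [NeZero M] [NeZero ℓ]
    (hM : M = D.Q * D.R) (hM' : M * ℓ = D'.Q * D'.R) (hQ : D'.Q = D.Q) (hR : D'.R = D.R * ℓ)
    (x : FBar M) :
    ((wAt D' hM' (heckeBetaBar Qb M ℓ x) : FBar (M * ℓ)) : LaurentSeries Qb) =
      qExpand Qb ℓ ((wAt D hM x : FBar M) : LaurentSeries Qb) := by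
  set Φ₁ : FBar M →+* LaurentSeries Qb :=
    ((modularFunctionFieldBar (M * ℓ)).val.toRingHom.comp
      ((wAt D' hM').toAlgHom.toRingHom.comp (heckeBetaBar Qb M ℓ).toRingHom)) with hΦ₁
  set Φ₂ : FBar M →+* LaurentSeries Qb :=
    ((qExpand Qb ℓ).comp
      ((modularFunctionFieldBar M).val.toRingHom.comp (wAt D hM).toAlgHom.toRingHom)) with hΦ₂
  have key : Φ₁ = Φ₂ := by
    refine Fermat.Agent.Kronecker.ringHom_ext_FBar M Φ₁ Φ₂ (fun c => ?_) (fun d hdne hd => ?_)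
    · show ((wAt D' hM' (heckeBetaBar Qb M ℓ (algebraMap Qb (FBar M) c)) : FBar (M * ℓ)) :
          LaurentSeries Qb) =
        qExpand Qb ℓ ((wAt D hM (algebraMap Qb (FBar M) c) : FBar M) : LaurentSeries Qb)
      rw [AlgHom.commutes, AlgEquiv.commutes, AlgEquiv.commutes]
      show algebraMap Qb (LaurentSeries Qb) c = qExpand Qb ℓ (algebraMap Qb (LaurentSeries Qb) c)
      rw [algebraMap_laurentSeries_eq_single, qExpand_single, mul_zero]
    · show ((wAt D' hM' (heckeBetaBar Qb M ℓ (Fermat.Agent.Kronecker.jdBar M d hd)) :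
          FBar (M * ℓ)) : LaurentSeries Qb) =
        qExpand Qb ℓ ((wAt D hM (Fermat.Agent.Kronecker.jdBar M d hd) : FBar M) :
          LaurentSeries Qb)
      have hd0 : d ∣ D.Q * D.R := hM ▸ hd
      obtain ⟨d₁, e₁, d₂, f₂, h1, h2, rfl⟩ := exists_factor D hd0
      obtain ⟨p1, p2, p3, p4⟩ := factor_pos D h1 h2
      have hℓ0 : 0 < ℓ := Nat.pos_of_ne_zero (NeZero.ne ℓ)
      haveI : NeZero (e₁ * d₂) := ⟨(Nat.mul_pos p2 p3).ne'⟩
      haveI : NeZero (d₁ * (d₂ * ℓ)) := ⟨(Nat.mul_pos p1 (Nat.mul_pos p3 hℓ0)).ne'⟩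
      haveI : NeZero (e₁ * (d₂ * ℓ)) := ⟨(Nat.mul_pos p2 (Nat.mul_pos p3 hℓ0)).ne'⟩
      have h2' : (d₂ * ℓ) * f₂ = D'.R := by
        rw [hR, ← h2]
        ring
      have h1' : d₁ * e₁ = D'.Q := by rw [hQ, h1]
      have hβ : ((heckeBetaBar Qb M ℓ (Fermat.Agent.Kronecker.jdBar M (d₁ * d₂) hd) :
          FBar (M * ℓ)) : LaurentSeries Qb) = qExpand Qb (d₁ * (d₂ * ℓ)) (jqModC Qb) := by
        rw [coe_heckeBetaBar, Fermat.Agent.Kronecker.coe_jdBar, qExpand_qExpand]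
        exact qExpand_congr (by ring) _
      rw [coe_wAt_of_coe_eq D hM _ d₁ e₁ d₂ f₂ h1 h2
          (Fermat.Agent.Kronecker.coe_jdBar M _ hd),
        coe_wAt_of_coe_eq D' hM' _ d₁ e₁ (d₂ * ℓ) f₂ h1' h2' hβ, qExpand_qExpand]
      exact qExpand_congr (by ring) _
  exact congrArg (fun Φ : FBar M →+* LaurentSeries Qb => Φ x) key

/-- `T_ℓ (w f) = w (T_ℓ f)` on functions, given the Atkin–Lehner datum of the level `M ℓ`. -/
theorem spW_heckeFun_of (D D' : ALData) {M ℓ : ℕ} [NeZero M] [NeZero ℓ]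
    (hM : M = D.Q * D.R) (hM' : M * ℓ = D'.Q * D'.R) (hQ : D'.Q = D.Q) (hR : D'.R = D.R * ℓ)
    (f : FBar M) :
    heckeFun Qb M ℓ (wAt D hM f) = wAt D hM (heckeFun Qb M ℓ f) := by
  have h1 : heckeBetaBar Qb M ℓ (wAt D hM f) = wAt D' hM' (heckeBetaBar Qb M ℓ f) := by
    apply Subtype.ext
    rw [spW_coe_wAt_heckeBetaBar D D' hM hM' hQ hR f, coe_heckeBetaBar]
  have h2 : ∀ x : FBar M, wAt D' hM' (heckeAlphaBar Qb M ℓ x) =
      heckeAlphaBar Qb M ℓ (wAt D hM x) := by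
    intro x
    apply Subtype.ext
    rw [coe_wAt_heckeAlphaBar D D' hM hM' hQ hR x, coe_heckeAlphaBar]
  rw [heckeFun_apply, heckeFun_apply, h1]
  exact spW_normAlong_equiv (heckeAlphaBar Qb M ℓ) (wAt D hM) (wAt D' hM') h2 _

end Compat

/-! ### (W0), (W1) -/

section W

variable (D : ALData) [NeZero D.Q] [NeZero D.R] [NeZero (D.Q * D.R)]

/-- **(W0)** `w_*` is an involution of `J₀(N)(ℚ̄)`. -/
theorem spW_pushW_pushW (y : JZero (D.Q * D.R)) : pushW D (pushW D y) = y := by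
  obtain ⟨E, rfl⟩ := Pic0.mk_surjective y
  rw [pushW_mk, pushW_mk]
  congr 1
  apply Subtype.ext
  rw [coe_pushDegZero, coe_pushDegZero]
  exact spW_pushforwardAlong_invol (atkinLehner D) (atkinLehner_atkinLehner D) _
    (Fermat.Agent.RRMod.isRRField_bar (D.Q * D.R)).deg_one _

/-- `w_*` commutes with multiples. -/
theorem spW_pushW_nsmul (n : ℕ) (y : JZero (D.Q * D.R)) : pushW D (n • y) = n • pushW D y :=
  map_nsmul (pushW D) n y

/-- **(W1)** Kummer generators. -/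
theorem spW_isKumGen {p : ℕ} {y : JZero (D.Q * D.R)}
    {E : Divisor.degZero (K := Qb) (F := FBar (D.Q * D.R))} {g : FBar (D.Q * D.R)}
    (h : spIsKumGen p y E g) :
    ∃ E' : Divisor.degZero (K := Qb) (F := FBar (D.Q * D.R)),
      spIsKumGen p (pushW D y) E' (atkinLehner D g) := by
  obtain ⟨hR, rfl⟩ := h
  obtain ⟨E', h1, h2⟩ := isRootDiv_pushW D hR
  exact ⟨E', h2, h1.symm⟩

/-! ### (W2) -/

/-- `T_ℓ (w f) = w (T_ℓ f)` on functions, `ℓ ∤ N` prime. -/
theorem spW_heckeFun {ℓ : ℕ} [NeZero ℓ] (hℓ : ℓ.Prime) (hℓN : ¬ ℓ ∣ D.Q * D.R)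
    (f : FBar (D.Q * D.R)) :
    heckeFun Qb (D.Q * D.R) ℓ (atkinLehner D f) = atkinLehner D (heckeFun Qb (D.Q * D.R) ℓ f) := by
  have hcop : Nat.Coprime D.Q (D.R * ℓ) := by
    have h1 : Nat.Coprime D.Q D.R := by
      have h := D.hdet
      rw [← Nat.isCoprime_iff_coprime]
      exact ⟨D.a, -D.b, by linear_combination h⟩
    have h2 : Nat.Coprime D.Q ℓ :=
      (Nat.Coprime.symm ((Nat.Prime.coprime_iff_not_dvd hℓ).2
        (fun hd => hℓN (hd.mul_right D.R))))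
    exact Nat.Coprime.mul_right h1 h2
  obtain ⟨D', hQ, hR⟩ := ALData.exists_of_coprime D.hQ
    (Nat.mul_pos D.hR (Nat.pos_of_ne_zero (NeZero.ne ℓ))) hcop
  have hM' : D.Q * D.R * ℓ = D'.Q * D'.R := by rw [hQ, hR, mul_assoc]
  have key := spW_heckeFun_of D D' rfl hM' hQ hR f
  rwa [wAt_eq_rfl] at key

/-- **`T_ℓ ∘ w_* = w_* ∘ T_ℓ`** on torsion classes (`ℓ ∤ N` prime). -/
theorem spW_hecke_pushW (ℓ : Nat.Primes) (hℓN : ¬ (ℓ : ℕ) ∣ D.Q * D.R) {n : ℕ} (hn : n ≠ 0)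
    (y : JZero (D.Q * D.R)) (hy : n • y = 0) :
    heckeOperatorBar (D.Q * D.R) ℓ (pushW D y) =
      pushW D (heckeOperatorBar (D.Q * D.R) ℓ y) := by
  haveI : NeZero (ℓ : ℕ) := ⟨ℓ.2.ne_zero⟩
  have hy' : (n : ℤ) • y = 0 := by rwa [natCast_zsmul]
  obtain ⟨E, f, hf, rfl, hE⟩ := exists_div_of_zsmul_eq_zero (n : ℤ) y hy'
  have hR : IsRootDiv n f E := ⟨hf, hE⟩
  have hin := Fermat.Agent.HeckeInputs.hi_heckeInputsAlong_Qbar (D.Q * D.R) (ℓ : ℕ)
  obtain ⟨E₁, hE₁, hR₁⟩ := isRootDiv_pushW D hR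
  obtain ⟨E₂, hE₂, hR₂⟩ := heckeOperatorAlong_mk_of_zsmul_eq_div hin E₁ (n : ℤ) hR₁.1 hR₁.2
  obtain ⟨E₃, hE₃, hR₃⟩ := heckeOperatorAlong_mk_of_zsmul_eq_div hin E (n : ℤ) hf hE
  have hTf : heckeFun Qb (D.Q * D.R) (ℓ : ℕ) f ≠ 0 := heckeFun_ne_zero hin hf
  obtain ⟨E₄, hE₄, hR₄⟩ := isRootDiv_pushW D (n := n) (E := E₃) ⟨hTf, hR₃⟩
  rw [heckeOperatorBar_apply, heckeOperatorBar_apply, hE₁, hE₂, hE₃, hE₄]
  refine congrArg Pic0.mk (Fermat.Agent.BadRed.PullAux.eq_of_isRootDiv hn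
    (x := heckeFun Qb (D.Q * D.R) (ℓ : ℕ) (atkinLehner D f)) ⟨heckeFun_ne_zero hin hR₁.1, hR₂⟩ ?_)
  rw [spW_heckeFun D ℓ.2 hℓN f]
  exact hR₄

/-- **(W2)** `w_*` preserves the `p`-new eigenspaces. -/
theorem spW_isNewEigen (S : Finset ℕ) (a : ℕ → ℤ) {y : JZero (D.Q * D.R)}
    (h : spIsNewEigen D S a y) : spIsNewEigen D S a (pushW D y) := by
  obtain ⟨h1, h2, h3, h4⟩ := h
  refine ⟨?_, ?_, ?_, fun ℓ hℓS hℓN => ?_⟩
  · rw [← map_nsmul, h1, map_zero]
  · exact h3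
  · show Fermat.Agent.S33.pnewAlpha (mul_comm D.Q D.R) (pushW D (pushW D y)) = 0
    rw [spW_pushW_pushW]
    exact h2
  · rw [spW_hecke_pushW D ℓ hℓN (NeZero.ne D.Q) y h1, h4 ℓ hℓS hℓN, map_zsmul]

/-! ### (W3) -/

/-- **(W3a)** `w_*` preserves the Kummer stabiliser condition. -/
theorem spW_kumStab {p : ℕ} {A : ValuationSubring Qb} {y : JZero (D.Q * D.R)}
    (h : spKumStab p A y) : spKumStab p A (pushW D y) := by
  obtain ⟨a, h1, h2, h3, h4⟩ := h
  refine ⟨a, h1, h2, h3, fun α ζ hα hζ σ hσ hσζ hσα => ?_⟩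
  rw [← pushW_smul, h4 α ζ hα hζ σ hσ hσζ hσα]

/-- **(W3b)** `w_*` preserves unipotence. -/
theorem spW_unip {p : ℕ} {A : ValuationSubring Qb} {y : JZero (D.Q * D.R)}
    (h : spUnip p A y) : spUnip p A (pushW D y) := by
  intro ζ hζ σ hσ τ hτ hτζ
  have e : σ • pushW D y - pushW D y = pushW D (σ • y - y) := by
    rw [map_sub, pushW_smul]
  rw [e, ← pushW_smul, h ζ hζ σ hσ τ hτ hτζ]

/-! ### (W4) -/

/-- `w_*` maps `K'` into `K'`. -/
theorem spW_mem_kPrime {A : ValuationSubring Qb} {p : ℕ} {y : JZero (D.Q * D.R)}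
    (h : y ∈ PNew.kPrime D rfl A p) : pushW D y ∈ PNew.kPrime D rfl A p := by
  obtain ⟨n, E, g, hR, rfl, h1, h2⟩ := h
  obtain ⟨E', hE', hR'⟩ := isRootDiv_pushW D hR
  refine ⟨n, E', atkinLehner D g, hR', hE'.symm, ?_, ?_⟩
  · rw [wAt_eq_rfl] at h2
    exact h2
  · rw [wAt_eq_rfl]
    have e : atkinLehner D (atkinLehner D g) = g := atkinLehner_atkinLehner D g
    show ((atkinLehner D (atkinLehner D g) : FBar (D.Q * D.R)) : LaurentSeries Qb) ∈ _ ∧ _
    rw [e]
    exact h1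

/-- **(W4)** `y ∈ K' ↔ w_* y ∈ K'`. -/
theorem spW_mem_kPrime_iff {A : ValuationSubring Qb} {p : ℕ} {y : JZero (D.Q * D.R)} :
    y ∈ PNew.kPrime D rfl A p ↔ pushW D y ∈ PNew.kPrime D rfl A p := by
  refine ⟨spW_mem_kPrime D, fun h => ?_⟩
  have := spW_mem_kPrime D h
  rwa [spW_pushW_pushW] at this

end W

/-! ### the junction -/

/-- **J-W**: the `w`-symmetry of the hypotheses of the spine. -/
theorem spJW : SpJW := by
  intro D _ _ _ A _ _ _ S a y _
  exact ⟨spW_isNewEigen D S a, spW_kumStab D, spW_unip D, fun E g h => spW_isKumGen D h⟩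

end Fermat.Agent.R38
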